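import Mathlib

/-!
# Programme I, node (A1a): the real absolute value of a rank-one valuation ring (helper2)

`A : ValuationSubring K` of rank one (in the divisibility form `Red.IsRankOne A` of main,
unfolded here so that the file is Mathlib-only), with a chosen non-zero non-unit `ϖ` and a
prescribed value `0 < r < 1`.  We construct the real absolute value `d.abv` on `K` with unit
ball `A` and `d.abv ϖ = r` (Hölder's embedding of the archimedean value group, through
Mathlib's `Archimedean.exists_orderAddMonoidHom_real_injective`).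

* `Datum A` : the data;
* `Datum.hom : A.ValueGroup →*₀ ℝ`, strictly monotone, `d.abv x = d.hom (A.valuation x)`;
* `Datum.abv : AbsoluteValue K ℝ`, `abv_le_one_iff`, `abv_lt_one_iff`, `abv_le_iff`,
  `abv_lt_iff`, `abv_eq_iff`, `abv_unif`, `abv_add_le_max`, `isNonarchimedean`;
* `Datum.abv_unique` : the absolute value is determined by its unit ball and `ϖ ↦ r`.
-/

namespace Fermat.Agent.FF3.AbsB

variable {K : Type*} [Field K]

/-- A rank-one valuation subring with a normalisation `|ϖ| = r`. -/
structure Datum (A : ValuationSubring K) where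
  /-- `A` has rank one (`Red.IsRankOne A`). -/
  rankOne : ∀ a : A, ¬ IsUnit a → ∀ b : A, b ≠ 0 → ∃ n : ℕ, b ∣ a ^ n
  /-- the normalising element -/
  ϖ : K
  ϖ_ne : ϖ ≠ 0
  ϖ_mem : ϖ ∈ A.nonunits
  /-- its prescribed absolute value -/
  r : ℝ
  r_pos : 0 < r
  r_lt : r < 1

namespace Datum

variable {A : ValuationSubring K}

/-- Rank one in valuation form. -/
theorem exists_pow_valuation_le (d : Datum A) {x y : K} (hx : A.valuation x < 1) (hy : y ≠ 0) :
    ∃ n : ℕ, A.valuation x ^ n ≤ A.valuation y := by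
  by_cases hy1 : 1 ≤ A.valuation y
  · exact ⟨0, by simpa using hy1⟩
  rw [not_le] at hy1
  have hxA : x ∈ A := (A.valuation_le_one_iff x).mp hx.le
  have hyA : y ∈ A := (A.valuation_le_one_iff y).mp hy1.le
  have hxu : ¬ IsUnit (⟨x, hxA⟩ : A) := by
    rw [A.valuation_eq_one_iff]
    exact hx.ne
  have hy0 : (⟨y, hyA⟩ : A) ≠ 0 := fun h => hy (congrArg Subtype.val h)
  obtain ⟨n, c, hc⟩ := d.rankOne ⟨x, hxA⟩ hxu ⟨y, hyA⟩ hy0
  refine ⟨n, ?_⟩
  have h1 : x ^ n = y * (c : K) := by
    have := congrArg Subtype.val hc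
    simpa using this
  rw [← map_pow, h1, map_mul]
  calc A.valuation y * A.valuation (c : K) ≤ A.valuation y * 1 :=
        mul_le_mul' le_rfl ((A.valuation_le_one_iff _).mpr c.2)
    _ = A.valuation y := mul_one _

/-- The group of units of the value group is archimedean. -/
theorem mulArchimedean (d : Datum A) : MulArchimedean (A.ValueGroup)ˣ := by
  refine ⟨fun x y hy => ?_⟩
  by_cases hx : x ≤ 1
  · exact ⟨0, by simpa using hx⟩
  rw [not_le] at hx
  obtain ⟨a, ha⟩ := A.valuation_surjective (y⁻¹ : (A.ValueGroup)ˣ)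
  obtain ⟨c, hc⟩ := A.valuation_surjective (x⁻¹ : (A.ValueGroup)ˣ)
  have ha1 : A.valuation a < 1 := by
    rw [ha]
    have : y⁻¹ < 1 := inv_lt_one'.mpr hy
    exact_mod_cast this
  have hc0 : c ≠ 0 := by
    intro h
    rw [h, map_zero] at hc
    exact (Units.ne_zero _) hc.symm
  obtain ⟨n, hn⟩ := d.exists_pow_valuation_le ha1 hc0
  refine ⟨n, ?_⟩
  rw [ha, hc] at hn
  have h2 : (y⁻¹) ^ n ≤ x⁻¹ := by exact_mod_cast hn
  rw [inv_pow, inv_le_inv_iff] at h2
  exact h2

/-- Hölder's embedding of the (additive) value group into `ℝ`. -/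
noncomputable def holder (d : Datum A) : Additive (A.ValueGroup)ˣ →+o ℝ :=
  haveI := d.mulArchimedean
  Classical.choose (Archimedean.exists_orderAddMonoidHom_real_injective (Additive (A.ValueGroup)ˣ))

variable (d : Datum A)

theorem holder_injective : Function.Injective d.holder :=
  haveI := d.mulArchimedean
  Classical.choose_spec
    (Archimedean.exists_orderAddMonoidHom_real_injective (Additive (A.ValueGroup)ˣ))

theorem holder_strictMono : StrictMono d.holder :=
  d.holder.monotone'.strictMono_of_injective d.holder_injective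

/-- The un-normalised logarithm on the units of the value group. -/
noncomputable def logv (g : (A.ValueGroup)ˣ) : ℝ := d.holder (Additive.ofMul g)

theorem logv_one : d.logv 1 = 0 := by
  unfold logv
  rw [ofMul_one, map_zero]

theorem logv_mul (g h : (A.ValueGroup)ˣ) : d.logv (g * h) = d.logv g + d.logv h := by
  unfold logv
  rw [ofMul_mul, map_add]

theorem logv_strictMono : StrictMono d.logv := fun _ _ h => d.holder_strictMono h

/-- The value of `ϖ` as a unit of the value group. -/
noncomputable def g₀ : (A.ValueGroup)ˣ :=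
  Units.mk0 (A.valuation d.ϖ) ((A.valuation.ne_zero_iff).mpr d.ϖ_ne)

theorem g₀_lt_one : d.g₀ < 1 := by
  have h : A.valuation d.ϖ < 1 := (A.mem_nonunits_iff).mp d.ϖ_mem
  have : ((d.g₀ : (A.ValueGroup)ˣ) : A.ValueGroup) < ((1 : (A.ValueGroup)ˣ) : A.ValueGroup) := by
    simpa [g₀] using h
  exact_mod_cast this

theorem logv_g₀_neg : d.logv d.g₀ < 0 := by
  have := d.logv_strictMono d.g₀_lt_one
  rwa [logv_one] at this

/-- The normalising constant. -/
noncomputable def scale : ℝ := Real.log d.r / d.logv d.g₀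

theorem scale_pos : 0 < d.scale :=
  div_pos_of_neg_of_neg (Real.log_neg d.r_pos d.r_lt) d.logv_g₀_neg

/-- The strictly monotone embedding of the value group into `ℝ`, as a function. -/
noncomputable def homFun (γ : A.ValueGroup) : ℝ :=
  if h : γ = 0 then 0 else Real.exp (d.scale * d.logv (Units.mk0 γ h))

theorem homFun_zero : d.homFun 0 = 0 := by simp [homFun]

theorem homFun_of_ne {γ : A.ValueGroup} (h : γ ≠ 0) :
    d.homFun γ = Real.exp (d.scale * d.logv (Units.mk0 γ h)) := by simp [homFun, h]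

theorem homFun_pos {γ : A.ValueGroup} (h : γ ≠ 0) : 0 < d.homFun γ := by
  rw [d.homFun_of_ne h]; exact Real.exp_pos _

theorem homFun_one : d.homFun 1 = 1 := by
  rw [d.homFun_of_ne one_ne_zero]
  have : Units.mk0 (1 : A.ValueGroup) one_ne_zero = 1 := by ext; simp
  rw [this, logv_one, mul_zero, Real.exp_zero]

theorem homFun_mul (γ δ : A.ValueGroup) : d.homFun (γ * δ) = d.homFun γ * d.homFun δ := by
  by_cases hγ : γ = 0
  · simp [hγ, homFun_zero]
  by_cases hδ : δ = 0
  · simp [hδ, homFun_zero]
  rw [d.homFun_of_ne hγ, d.homFun_of_ne hδ, d.homFun_of_ne (mul_ne_zero hγ hδ), ← Real.exp_add,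
    ← mul_add, ← logv_mul]
  congr 3
  ext; simp

theorem homFun_strictMono : StrictMono d.homFun := by
  intro γ δ hγδ
  have hδ : δ ≠ 0 := fun h => by simp [h] at hγδ
  by_cases hγ : γ = 0
  · rw [hγ, homFun_zero]; exact d.homFun_pos hδ
  rw [d.homFun_of_ne hγ, d.homFun_of_ne hδ, Real.exp_lt_exp]
  refine mul_lt_mul_of_pos_left (d.logv_strictMono ?_) d.scale_pos
  rw [← Units.val_lt_val]
  simpa using hγδ

/-- **The strictly monotone embedding of the value group into `ℝ`.** -/
noncomputable def hom : A.ValueGroup →*₀ ℝ where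
  toFun := d.homFun
  map_zero' := d.homFun_zero
  map_one' := d.homFun_one
  map_mul' := d.homFun_mul

theorem hom_strictMono : StrictMono d.hom := d.homFun_strictMono

theorem hom_nonneg (γ : A.ValueGroup) : 0 ≤ d.hom γ := by
  by_cases h : γ = 0
  · rw [h, map_zero]
  · exact (d.homFun_pos h).le

/-- **The real absolute value with unit ball `A` and `|ϖ| = r`.** -/
noncomputable def abv : AbsoluteValue K ℝ where
  toFun x := d.hom (A.valuation x)
  map_mul' x y := by rw [map_mul, map_mul]
  nonneg' x := d.hom_nonneg _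
  eq_zero' x := by
    constructor
    · intro h
      by_contra hx
      have : A.valuation x ≠ 0 := (A.valuation.ne_zero_iff).mpr hx
      exact (d.homFun_pos this).ne' h
    · rintro rfl
      rw [map_zero, map_zero]
  add_le' x y := by
    have h1 : A.valuation (x + y) ≤ max (A.valuation x) (A.valuation y) :=
      A.valuation.map_add x y
    have h2 : d.hom (A.valuation (x + y)) ≤ d.hom (max (A.valuation x) (A.valuation y)) :=
      d.hom_strictMono.monotone h1
    rw [d.hom_strictMono.monotone.map_max] at h2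
    exact h2.trans (max_le_add_of_nonneg (d.hom_nonneg _) (d.hom_nonneg _))

theorem abv_apply (x : K) : d.abv x = d.hom (A.valuation x) := rfl

theorem abv_le_iff {x y : K} : d.abv x ≤ d.abv y ↔ A.valuation x ≤ A.valuation y :=
  d.hom_strictMono.le_iff_le

theorem abv_lt_iff {x y : K} : d.abv x < d.abv y ↔ A.valuation x < A.valuation y :=
  d.hom_strictMono.lt_iff_lt

theorem abv_eq_iff {x y : K} : d.abv x = d.abv y ↔ A.valuation x = A.valuation y :=
  d.hom_strictMono.injective.eq_iff

theorem abv_le_one_iff {x : K} : d.abv x ≤ 1 ↔ x ∈ A := by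
  rw [← A.valuation_le_one_iff, ← d.abv.map_one, abv_le_iff, map_one]

theorem abv_lt_one_iff {x : K} : d.abv x < 1 ↔ x ∈ A.nonunits := by
  rw [A.mem_nonunits_iff, ← d.abv.map_one, abv_lt_iff, map_one]

theorem abv_eq_one_iff {x : K} : d.abv x = 1 ↔ A.valuation x = 1 := by
  rw [← d.abv.map_one, abv_eq_iff, map_one]

/-- The normalisation. -/
theorem abv_unif : d.abv d.ϖ = d.r := by
  have hne : A.valuation d.ϖ ≠ 0 := (A.valuation.ne_zero_iff).mpr d.ϖ_ne
  change d.homFun (A.valuation d.ϖ) = d.r
  rw [d.homFun_of_ne hne]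
  have : Units.mk0 (A.valuation d.ϖ) hne = d.g₀ := rfl
  rw [this, scale, div_mul_cancel₀ _ d.logv_g₀_neg.ne, Real.exp_log d.r_pos]

/-- The ultrametric inequality. -/
theorem abv_add_le_max (x y : K) : d.abv (x + y) ≤ max (d.abv x) (d.abv y) := by
  have h1 : A.valuation (x + y) ≤ max (A.valuation x) (A.valuation y) :=
    A.valuation.map_add x y
  have h2 : d.hom (A.valuation (x + y)) ≤ d.hom (max (A.valuation x) (A.valuation y)) :=
    d.hom_strictMono.monotone h1
  rwa [d.hom_strictMono.monotone.map_max] at h2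

theorem isNonarchimedean : IsNonarchimedean d.abv := d.abv_add_le_max

theorem abv_isNontrivial : d.abv.IsNontrivial :=
  ⟨d.ϖ, d.ϖ_ne, by rw [d.abv_unif]; exact d.r_lt.ne⟩

/-- **Uniqueness.**  A real absolute value with unit ball `A` and `ϖ ↦ r` is `d.abv`. -/
theorem abv_unique (w : AbsoluteValue K ℝ) (hw : ∀ x : K, w x ≤ 1 ↔ x ∈ A) (hwϖ : w d.ϖ = d.r) :
    w = d.abv := by
  have hlt : ∀ x : K, d.abv x < 1 ↔ w x < 1 := by
    intro x
    by_cases hx : x = 0
    · simp [hx]
    rw [d.abv_lt_one_iff, A.mem_nonunits_iff]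
    have h1 : A.valuation x < 1 ↔ ¬ (x⁻¹ ∈ A) := by
      rw [← A.valuation_le_one_iff, map_inv₀, not_le,
        one_lt_inv₀ (zero_lt_iff.mpr ((A.valuation.ne_zero_iff).mpr hx))]
    have h2 : w x < 1 ↔ ¬ (w x⁻¹ ≤ 1) := by
      rw [map_inv₀, not_le, one_lt_inv₀ (w.pos hx)]
    rw [h1, h2, hw]
  have hequiv : d.abv.IsEquiv w := AbsoluteValue.isEquiv_iff_lt_one_iff.mpr hlt
  obtain ⟨c, hc, hcw⟩ := AbsoluteValue.isEquiv_iff_exists_rpow_eq.mp hequiv
  have hc1 : c = 1 := by
    have h := congrFun hcw d.ϖ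
    simp only [d.abv_unif, hwϖ] at h
    -- `r ^ c = r` with `0 < r < 1`
    have h3 : Real.log (d.r ^ c) = Real.log d.r := by rw [h]
    rw [Real.log_rpow d.r_pos] at h3
    have hlog : Real.log d.r ≠ 0 := (Real.log_neg d.r_pos d.r_lt).ne
    have : (c - 1) * Real.log d.r = 0 := by linarith
    rcases mul_eq_zero.mp this with h4 | h4
    · linarith
    · exact absurd h4 hlog
  ext x
  have h := congrFun hcw x
  simp only [hc1, Real.rpow_one] at h
  exact h.symm

end Datum

end Fermat.Agent.FF3.AbsB
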