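import Fermat.Agent.FF3.AbsB.Kb
import Fermat.Agent.S14.TransCore

/-!
# Programme I, node (A1a) addendum: the decomposition group acts on `Ω = OmegaB B hB` (helper2)

For `σ : ℚ̄ ≃ₐ[ℚ] ℚ̄` in the decomposition group of `B` (in particular in the inertia group
`B.inertiaSubgroupIn ℚ`): `sigmaOmega B hB σ hσ : OmegaB B hB →+* OmegaB B hB`, the unique continuous
ring endomorphism with `σΩ (ι c) = ι (σ c)`; it is isometric and bijective
(`sigmaOmegaEquiv`).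
-/

namespace Fermat.Agent.FF3.AbsB

local notation "Kb" => AlgebraicClosure ℚ

open scoped Pointwise

variable (B : ValuationSubring Kb) {q : ℕ} [hq : Fact q.Prime] (hB : B.LiesOverPrime q)

/-- An element of the decomposition group preserves `B`. -/
theorem map_mem_iff_of_mem_decomposition {σ : Kb ≃ₐ[ℚ] Kb}
    (hσ : σ ∈ B.decompositionSubgroup ℚ) (x : Kb) : σ x ∈ B ↔ x ∈ B := by
  have h : σ • B = B := hσ
  constructor
  · intro hx
    have : σ x ∈ σ • B := by rw [h]; exact hx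
    rw [ValuationSubring.mem_pointwise_smul_iff_inv_smul_mem] at this
    simpa using this
  · intro hx
    rw [← h, ValuationSubring.mem_pointwise_smul_iff_inv_smul_mem]
    simpa using hx

theorem mem_decomposition_of_mem_inertia {σ : Kb ≃ₐ[ℚ] Kb} (hσ : σ ∈ B.inertiaSubgroupIn ℚ) :
    σ ∈ B.decompositionSubgroup ℚ :=
  ((Fermat.Agent.S14.mem_inertiaSubgroupIn_iff B σ).mp hσ).1

/-- Elements of the decomposition group are isometries of `(ℚ̄, absB)`. -/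
theorem absB_map_of_mem_decomposition {σ : Kb ≃ₐ[ℚ] Kb} (hσ : σ ∈ B.decompositionSubgroup ℚ)
    (x : Kb) : absB B hB (σ x) = absB B hB x :=
  absB_map_of_mem_iff B hB (σ : Kb ≃+* Kb) (fun y => map_mem_iff_of_mem_decomposition B hσ y) x

/-- **The action of the decomposition group on `Ω`.** -/
noncomputable def sigmaOmega (σ : Kb ≃ₐ[ℚ] Kb) (hσ : σ ∈ B.decompositionSubgroup ℚ) :
    OmegaB B hB →+* OmegaB B hB :=
  (datumKb B hB).lift (((datumKb B hB).ι).comp ((σ : Kb ≃+* Kb) : Kb →+* Kb)) fun x => by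
    rw [RingHom.comp_apply, Datum.norm_ι]
    exact absB_map_of_mem_decomposition B hB hσ x

variable {B hB}

theorem sigmaOmega_ι {σ : Kb ≃ₐ[ℚ] Kb} (hσ : σ ∈ B.decompositionSubgroup ℚ) (c : Kb) :
    sigmaOmega B hB σ hσ ((datumKb B hB).ι c) = (datumKb B hB).ι (σ c) :=
  (datumKb B hB).lift_ι _ _ c

theorem norm_sigmaOmega {σ : Kb ≃ₐ[ℚ] Kb} (hσ : σ ∈ B.decompositionSubgroup ℚ)
    (y : OmegaB B hB) : ‖sigmaOmega B hB σ hσ y‖ = ‖y‖ :=
  (datumKb B hB).norm_lift _ _ y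

theorem continuous_sigmaOmega {σ : Kb ≃ₐ[ℚ] Kb} (hσ : σ ∈ B.decompositionSubgroup ℚ) :
    Continuous (sigmaOmega B hB σ hσ) :=
  (datumKb B hB).continuous_lift _ _

/-- Uniqueness: a continuous ring endomorphism of `Ω` inducing `σ` on `ℚ̄` is `sigmaOmega`. -/
theorem eq_sigmaOmega {σ : Kb ≃ₐ[ℚ] Kb} (hσ : σ ∈ B.decompositionSubgroup ℚ)
    (g : OmegaB B hB →+* OmegaB B hB) (hg : Continuous g)
    (h : ∀ c : Kb, g ((datumKb B hB).ι c) = (datumKb B hB).ι (σ c)) :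
    g = sigmaOmega B hB σ hσ :=
  (datumKb B hB).lift_unique _ _ g hg h

theorem sigmaOmega_comp {σ τ : Kb ≃ₐ[ℚ] Kb} (hσ : σ ∈ B.decompositionSubgroup ℚ)
    (hτ : τ ∈ B.decompositionSubgroup ℚ) :
    (sigmaOmega B hB σ hσ).comp (sigmaOmega B hB τ hτ) =
      sigmaOmega B hB (σ * τ) (mul_mem hσ hτ) :=
  eq_sigmaOmega (mul_mem hσ hτ) _
    ((continuous_sigmaOmega hσ).comp (continuous_sigmaOmega hτ)) fun c => by
      rw [RingHom.comp_apply, sigmaOmega_ι, sigmaOmega_ι]; rfl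

theorem sigmaOmega_one :
    sigmaOmega B hB 1 (one_mem _) = RingHom.id (OmegaB B hB) :=
  (eq_sigmaOmega (one_mem _) _ continuous_id fun c => by simp).symm

theorem sigmaOmega_apply_apply_inv {σ : Kb ≃ₐ[ℚ] Kb} (hσ : σ ∈ B.decompositionSubgroup ℚ)
    (y : OmegaB B hB) :
    sigmaOmega B hB σ hσ (sigmaOmega B hB σ⁻¹ (inv_mem hσ) y) = y := by
  have h := sigmaOmega_comp (hB := hB) hσ (inv_mem hσ)
  have h2 : sigmaOmega B hB (σ * σ⁻¹) (mul_mem hσ (inv_mem hσ)) = RingHom.id _ := by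
    rw [← sigmaOmega_one (B := B) (hB := hB)]
    congr 1
    exact mul_inv_cancel σ
  rw [h2] at h
  exact congrFun (congrArg DFunLike.coe h) y

theorem sigmaOmega_inv_apply_apply {σ : Kb ≃ₐ[ℚ] Kb} (hσ : σ ∈ B.decompositionSubgroup ℚ)
    (y : OmegaB B hB) :
    sigmaOmega B hB σ⁻¹ (inv_mem hσ) (sigmaOmega B hB σ hσ y) = y := by
  have h := sigmaOmega_apply_apply_inv (hB := hB) (inv_mem hσ) y
  simpa only [inv_inv] using h

/-- `sigmaOmega` as a ring automorphism of `Ω`. -/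
noncomputable def sigmaOmegaEquiv (σ : Kb ≃ₐ[ℚ] Kb) (hσ : σ ∈ B.decompositionSubgroup ℚ) :
    OmegaB B hB ≃+* OmegaB B hB :=
  RingEquiv.ofRingHom (sigmaOmega B hB σ hσ) (sigmaOmega B hB σ⁻¹ (inv_mem hσ))
    (RingHom.ext fun y => sigmaOmega_apply_apply_inv hσ y)
    (RingHom.ext fun y => sigmaOmega_inv_apply_apply hσ y)

theorem sigmaOmegaEquiv_apply {σ : Kb ≃ₐ[ℚ] Kb} (hσ : σ ∈ B.decompositionSubgroup ℚ)
    (y : OmegaB B hB) : sigmaOmegaEquiv σ hσ y = sigmaOmega B hB σ hσ y := rfl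

theorem sigmaOmega_bijective {σ : Kb ≃ₐ[ℚ] Kb} (hσ : σ ∈ B.decompositionSubgroup ℚ) :
    Function.Bijective (sigmaOmega B hB σ hσ) :=
  (sigmaOmegaEquiv σ hσ).bijective

/-! ### Inertia-group forms (`σ ∈ B.inertiaSubgroupIn ℚ`) -/

/-- `sigmaOmega` for an element of the inertia group. -/
noncomputable abbrev sigmaOmegaI (σ : Kb ≃ₐ[ℚ] Kb) (hσ : σ ∈ B.inertiaSubgroupIn ℚ) :
    OmegaB B hB →+* OmegaB B hB :=
  sigmaOmega B hB σ (mem_decomposition_of_mem_inertia B hσ)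

theorem sigmaOmegaI_ι {σ : Kb ≃ₐ[ℚ] Kb} (hσ : σ ∈ B.inertiaSubgroupIn ℚ) (c : Kb) :
    sigmaOmegaI (hB := hB) σ hσ ((datumKb B hB).ι c) = (datumKb B hB).ι (σ c) :=
  sigmaOmega_ι _ c

theorem norm_sigmaOmegaI {σ : Kb ≃ₐ[ℚ] Kb} (hσ : σ ∈ B.inertiaSubgroupIn ℚ)
    (y : OmegaB B hB) : ‖sigmaOmegaI (hB := hB) σ hσ y‖ = ‖y‖ :=
  norm_sigmaOmega _ y

end Fermat.Agent.FF3.AbsB
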