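import Fermat.Agent.FF3.AbsB.Omega
import Fermat.Agent.Val.RankOne

/-!
# Programme I, node (A1a): the `q`-adic absolute value of `ℚ̄` at a valuation ring `B` over `q`
(helper2)

Instance of `FF3/AbsB/{Basic,Omega}` at main's situation: `B : ValuationSubring ℚ̄` lying over
the prime `q` (`Val.isRankOne`), normalised by `|q| = q⁻¹`.

* `datumOfRankOne` : from main's `Red.IsRankOne A` (any field);
* `datumKb B hB`, `absB B hB : AbsoluteValue ℚ̄ ℝ`, `absB_le_one_iff`, `absB_natCast_prime`,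
  `absB_add_le_max`, `absB_unique`, `absB_comp_of_map_eq` (invariance under automorphisms of
  `ℚ̄` preserving `B`), `OmegaB B hB` (the completion, `≅ ℂ_q`).
-/

namespace Fermat.Agent.FF3.AbsB

variable {K : Type*} [Field K]

/-- A datum from main's `Red.IsRankOne`. -/
noncomputable def datumOfRankOne (A : ValuationSubring K) (hA : Fermat.Agent.Red.IsRankOne A)
    (ϖ : K) (hϖ0 : ϖ ≠ 0) (hϖ : ϖ ∈ A.nonunits) (r : ℝ) (hr0 : 0 < r) (hr1 : r < 1) :
    Datum A where
  rankOne := hA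
  ϖ := ϖ
  ϖ_ne := hϖ0
  ϖ_mem := hϖ
  r := r
  r_pos := hr0
  r_lt := hr1

local notation "Kb" => AlgebraicClosure ℚ

variable (B : ValuationSubring Kb) {q : ℕ} [hq : Fact q.Prime] (hB : B.LiesOverPrime q)

/-- The datum of `(ℚ̄, B)` with `|q| = q⁻¹`. -/
noncomputable def datumKb : Datum B :=
  datumOfRankOne B (Fermat.Agent.Val.isRankOne B hB) (q : Kb)
    (Nat.cast_ne_zero.mpr hq.out.ne_zero) hB ((q : ℝ)⁻¹)
    (inv_pos.mpr (Nat.cast_pos.mpr hq.out.pos))
    (inv_lt_one_of_one_lt₀ (Nat.one_lt_cast.mpr hq.out.one_lt))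

/-- **The `q`-adic absolute value on `ℚ̄` with unit ball `B`**, `|q| = q⁻¹`. -/
noncomputable abbrev absB : AbsoluteValue Kb ℝ := (datumKb B hB).abv

theorem absB_le_one_iff {x : Kb} : absB B hB x ≤ 1 ↔ x ∈ B := (datumKb B hB).abv_le_one_iff

theorem absB_lt_one_iff {x : Kb} : absB B hB x < 1 ↔ x ∈ B.nonunits :=
  (datumKb B hB).abv_lt_one_iff

theorem absB_le_iff {x y : Kb} : absB B hB x ≤ absB B hB y ↔ B.valuation x ≤ B.valuation y :=
  (datumKb B hB).abv_le_iff

theorem absB_natCast_prime : absB B hB (q : Kb) = (q : ℝ)⁻¹ := (datumKb B hB).abv_unif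

theorem absB_add_le_max (x y : Kb) : absB B hB (x + y) ≤ max (absB B hB x) (absB B hB y) :=
  (datumKb B hB).abv_add_le_max x y

theorem absB_unique (w : AbsoluteValue Kb ℝ) (hw : ∀ x : Kb, w x ≤ 1 ↔ x ∈ B)
    (hwq : w (q : Kb) = (q : ℝ)⁻¹) : w = absB B hB :=
  (datumKb B hB).abv_unique w hw hwq

/-- **Galois invariance**: a ring automorphism of `ℚ̄` preserving `B` is an isometry. -/
theorem absB_map_of_mem_iff (σ : Kb ≃+* Kb) (hσ : ∀ x : Kb, σ x ∈ B ↔ x ∈ B) (x : Kb) :
    absB B hB (σ x) = absB B hB x := by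
  have h : (absB B hB).comp (f := σ.toRingHom) σ.injective = absB B hB := by
    refine absB_unique B hB _ (fun x => ?_) ?_
    · change absB B hB (σ x) ≤ 1 ↔ x ∈ B
      rw [absB_le_one_iff, hσ]
    · change absB B hB (σ (q : Kb)) = (q : ℝ)⁻¹
      rw [map_natCast, absB_natCast_prime]
  exact congrFun (congrArg DFunLike.coe h) x

/-- The completion of `(ℚ̄, B)` (a model of `ℂ_q`). -/
noncomputable abbrev OmegaB : Type := (datumKb B hB).Omega

end Fermat.Agent.FF3.AbsB
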