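import Fermat.Agent.FF3.AbsB.Basic

/-!
# Programme I, node (A1a): the normed field `(K, |·|)` and its completion `Ω` (helper2)

For `d : Datum A` (rank-one valuation subring of `K`, normalised by `|ϖ| = r`):

* `d.Kv := WithAbs d.abv` : Mathlib's synonym of `K` with the norm `d.abv`; instances
  `IsUltrametricDist`, `NontriviallyNormedField`;
* `d.Omega := d.abv.Completion` : the completion; instances `NormedField`, `CompleteSpace`
  (Mathlib), `IsUltrametricDist`, `NontriviallyNormedField`, `Algebra K d.Omega` (Mathlib);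
* `d.ι : K →+* d.Omega` (`= algebraMap`), `norm_ι`, `norm_ι_le_one_iff`, `norm_ι_lt_one_iff`,
  `denseRange_ι`, `exists_sub_lt`, `exists_mem_sub_lt`, `exists_norm_eq` (the value group and
  the residue field do not grow);
* `d.lift` : the universal property (isometric extension to any complete normed field).
-/

namespace Fermat.Agent.FF3.AbsB

open UniformSpace

variable {K : Type*} [Field K] {A : ValuationSubring K}

namespace Datum

variable (d : Datum A)

/-- `K` with the norm `d.abv` (Mathlib's `WithAbs`). -/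
abbrev Kv : Type _ := WithAbs d.abv

theorem norm_toAbs (x : K) : ‖(WithAbs.toAbs d.abv x : d.Kv)‖ = d.abv x := rfl

theorem norm_Kv (x : d.Kv) : ‖x‖ = d.abv x.ofAbs := rfl

instance isUltrametricDist_Kv : IsUltrametricDist d.Kv :=
  IsUltrametricDist.isUltrametricDist_of_forall_norm_add_le_max_norm fun x y =>
    d.abv_add_le_max x.ofAbs y.ofAbs

noncomputable instance nontriviallyNormedField_Kv : NontriviallyNormedField d.Kv :=
  NontriviallyNormedField.ofNormNeOne
    ⟨WithAbs.toAbs d.abv d.ϖ, (WithAbs.toAbs_eq_zero d.abv).not.mpr d.ϖ_ne, by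
      rw [d.norm_toAbs, d.abv_unif]; exact d.r_lt.ne⟩

/-- The completion of `K` at `d.abv`. -/
abbrev Omega : Type _ := d.abv.Completion

instance isUltrametricDist_Omega : IsUltrametricDist d.Omega :=
  IsUltrametricDist.isUltrametricDist_of_forall_norm_add_le_max_norm fun x y => by
    refine Completion.induction_on₂ x y ?_ ?_
    · exact isClosed_le (continuous_norm.comp continuous_add)
        ((continuous_norm.comp continuous_fst).max (continuous_norm.comp continuous_snd))
    · intro a b
      rw [← Completion.coe_add, Completion.norm_coe, Completion.norm_coe, Completion.norm_coe]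
      exact d.abv_add_le_max a.ofAbs b.ofAbs

/-- The canonical embedding `K → Ω`. -/
noncomputable def ι : K →+* d.Omega := algebraMap K d.Omega

theorem ι_apply (x : K) : d.ι x = ((WithAbs.toAbs d.abv x : d.Kv) : d.Omega) := rfl

theorem algebraMap_eq_ι (x : K) : algebraMap K d.Omega x = d.ι x := rfl

/-- `ι` is isometric. -/
theorem norm_ι (x : K) : ‖d.ι x‖ = d.abv x := by
  rw [ι_apply, Completion.norm_coe, norm_toAbs]

theorem norm_ι_le_one_iff {x : K} : ‖d.ι x‖ ≤ 1 ↔ x ∈ A := by
  rw [norm_ι, abv_le_one_iff]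

theorem norm_ι_lt_one_iff {x : K} : ‖d.ι x‖ < 1 ↔ x ∈ A.nonunits := by
  rw [norm_ι, abv_lt_one_iff]

theorem norm_ι_le_iff {x y : K} : ‖d.ι x‖ ≤ ‖d.ι y‖ ↔ A.valuation x ≤ A.valuation y := by
  rw [norm_ι, norm_ι, abv_le_iff]

theorem norm_ι_unif : ‖d.ι d.ϖ‖ = d.r := by rw [norm_ι, abv_unif]

theorem ι_injective : Function.Injective d.ι := d.ι.injective

noncomputable instance nontriviallyNormedField_Omega : NontriviallyNormedField d.Omega :=
  NontriviallyNormedField.ofNormNeOne
    ⟨d.ι d.ϖ, (map_ne_zero d.ι).mpr d.ϖ_ne, by rw [d.norm_ι_unif]; exact d.r_lt.ne⟩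

/-- `K` is dense in `Ω`. -/
theorem denseRange_ι : DenseRange d.ι := by
  have h : DenseRange (fun x : d.Kv => (x : d.Omega)) := Completion.denseRange_coe
  have : Set.range d.ι = Set.range (fun x : d.Kv => (x : d.Omega)) := by
    ext y
    constructor
    · rintro ⟨x, rfl⟩; exact ⟨WithAbs.toAbs d.abv x, rfl⟩
    · rintro ⟨x, rfl⟩; exact ⟨x.ofAbs, rfl⟩
  unfold DenseRange
  rw [this]
  exact h

/-- Approximation by elements of `K`. -/
theorem exists_sub_lt (y : d.Omega) {ε : ℝ} (hε : 0 < ε) : ∃ x : K, ‖y - d.ι x‖ < ε := by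
  obtain ⟨x, hx⟩ := d.denseRange_ι.exists_dist_lt y hε
  exact ⟨x, by rwa [dist_eq_norm] at hx⟩

theorem norm_sub_le_max (y z : d.Omega) : ‖y - z‖ ≤ max ‖y‖ ‖z‖ := by
  have := IsUltrametricDist.norm_add_le_max y (-z)
  rwa [← sub_eq_add_neg, norm_neg] at this

/-- The ultrametric "isosceles" principle in `Ω`. -/
theorem norm_eq_of_sub_lt {y z : d.Omega} (h : ‖y - z‖ < ‖y‖) : ‖z‖ = ‖y‖ := by
  have h1 : ‖z‖ ≤ max ‖y‖ ‖y - z‖ := by
    have := d.norm_sub_le_max y (y - z)
    rwa [sub_sub_cancel] at this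
  have h2 : ‖y‖ ≤ max ‖y - z‖ ‖z‖ := by
    have := IsUltrametricDist.norm_add_le_max (y - z) z
    rwa [sub_add_cancel] at this
  refine le_antisymm ?_ ?_
  · rw [max_eq_left h.le] at h1; exact h1
  · rcases le_max_iff.mp h2 with h3 | h3
    · exact absurd h (not_lt.mpr h3)
    · exact h3

/-- **The value group does not grow.** -/
theorem exists_norm_eq {y : d.Omega} (hy : y ≠ 0) : ∃ x : K, x ≠ 0 ∧ ‖y‖ = d.abv x := by
  obtain ⟨x, hx⟩ := d.exists_sub_lt y (norm_pos_iff.mpr hy)
  have h := d.norm_eq_of_sub_lt hx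
  rw [norm_ι] at h
  refine ⟨x, ?_, h.symm⟩
  rintro rfl
  rw [map_zero] at h
  exact (norm_pos_iff.mpr hy).ne h

/-- **The residue field does not grow**: the unit ball of `Ω` is approximated by `A`. -/
theorem exists_mem_sub_lt {y : d.Omega} (hy : ‖y‖ ≤ 1) {ε : ℝ} (hε : 0 < ε) :
    ∃ x ∈ A, ‖y - d.ι x‖ < ε := by
  obtain ⟨x, hx⟩ := d.exists_sub_lt y (lt_min hε one_pos)
  refine ⟨x, ?_, hx.trans_le (min_le_left _ _)⟩
  rw [← d.norm_ι_le_one_iff]
  have h1 : ‖d.ι x‖ ≤ max ‖y‖ ‖y - d.ι x‖ := by
    have := d.norm_sub_le_max y (y - d.ι x)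
    rwa [sub_sub_cancel] at this
  exact h1.trans (max_le hy (hx.le.trans (min_le_right _ _)))

section Lift

variable {L : Type*} [NormedField L] [CompleteSpace L]

/-- The ring hom `K → L` seen on `d.Kv`. -/
noncomputable def liftAux (f : K →+* L) : d.Kv →+* L := f.comp (WithAbs.equiv d.abv).toRingHom

omit [CompleteSpace L] in
theorem isometry_liftAux (f : K →+* L) (hf : ∀ x, ‖f x‖ = d.abv x) : Isometry (d.liftAux f) :=
  AddMonoidHomClass.isometry_of_norm (d.liftAux f) fun x => hf x.ofAbs

/-- **Universal property of `Ω`**: an isometric ring hom from `K` to a complete normed field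
extends to `Ω`. -/
noncomputable def lift (f : K →+* L) (hf : ∀ x, ‖f x‖ = d.abv x) : d.Omega →+* L :=
  Completion.extensionHom (d.liftAux f) (d.isometry_liftAux f hf).continuous

theorem lift_ι (f : K →+* L) (hf : ∀ x, ‖f x‖ = d.abv x) (x : K) :
    d.lift f hf (d.ι x) = f x := by
  rw [ι_apply]
  exact Completion.extensionHom_coe (d.liftAux f) (d.isometry_liftAux f hf).continuous _

theorem continuous_lift (f : K →+* L) (hf : ∀ x, ‖f x‖ = d.abv x) :
    Continuous (d.lift f hf) :=
  Completion.continuous_extension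

/-- The extension is isometric. -/
theorem norm_lift (f : K →+* L) (hf : ∀ x, ‖f x‖ = d.abv x) (y : d.Omega) :
    ‖d.lift f hf y‖ = ‖y‖ := by
  refine Completion.induction_on y ?_ ?_
  · exact isClosed_eq (continuous_norm.comp (d.continuous_lift f hf)) continuous_norm
  · intro a
    have : (a : d.Omega) = d.ι a.ofAbs := rfl
    rw [this, lift_ι, hf, norm_ι]

/-- Uniqueness of the extension. -/
theorem lift_unique (f : K →+* L) (hf : ∀ x, ‖f x‖ = d.abv x) (g : d.Omega →+* L)
    (hg : Continuous g) (hgf : ∀ x, g (d.ι x) = f x) : g = d.lift f hf := by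
  ext y
  refine Completion.induction_on y ?_ ?_
  · exact isClosed_eq hg (d.continuous_lift f hf)
  · intro a
    have : (a : d.Omega) = d.ι a.ofAbs := rfl
    rw [this, hgf, lift_ι]

end Lift

end Datum

end Fermat.Agent.FF3.AbsB
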